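import Fermat.Agent.H39.MW.ModStatements

/-!
# P-MW / Block E, row 876 (MW-E-DESC): `DescentStatement`

A finite-dimensional `ℚ̄`-subspace of `F̄ = ℚ̄ F₀ ⊆ ℚ̄((q))` which is stable under the
coefficientwise Galois action is spanned by its Galois-fixed vectors.

Proof: reduced echelon form.  For a finite-dimensional subspace `V` of a module `M` and a jointly
injective family of linear functionals `φ i` there are a finite set `S` of indices and vectors
`f k ∈ V` (`k ∈ S`) with `φ j (f k) = δ_{jk}` such that the `φ k`, `k ∈ S`, are jointly injective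
on `V` (`echelon_exists`).  With `φ k` = the `k`-th coefficient, the `f k` are Galois-fixed
(because `σ` fixes `0` and `1`), and they span `V`.
-/

set_option autoImplicit false

noncomputable section

open AlgebraicCurve ModularCurve Module

namespace Fermat.Agent.H27.MW

open Fermat.Agent.H92.MW Fermat.Agent.H39.MW

/-- **Reduced echelon form.**  For a finite-dimensional subspace `V` and a family of linear
functionals which is jointly injective on `V`, there are a finite set `S` of indices and vectors
`f k ∈ V` with `φ j (f k) = δ_{jk}` (`j, k ∈ S`) such that the `φ k`, `k ∈ S`, are jointly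
injective on `V`. -/
theorem echelon_exists {L M ι : Type*} [Field L] [AddCommGroup M] [Module L M] [DecidableEq ι]
    (φ : ι → (M →ₗ[L] L)) :
    ∀ (n : ℕ) (V : Submodule L M), Module.Finite L ↥V → finrank L ↥V = n →
      (∀ g ∈ V, (∀ i, φ i g = 0) → g = 0) →
      ∃ (S : Finset ι) (f : ι → M), (∀ k ∈ S, f k ∈ V) ∧
        (∀ k ∈ S, ∀ j ∈ S, φ j (f k) = if j = k then 1 else 0) ∧
        (∀ g ∈ V, (∀ k ∈ S, φ k g = 0) → g = 0) := by
  intro n
  induction n using Nat.strong_induction_on with
  | _ n ih =>
    intro V hfin hn hsep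
    by_cases hV : V = ⊥
    · refine ⟨∅, fun _ => 0, by simp, by simp, ?_⟩
      intro g hg _
      rw [hV] at hg
      exact (Submodule.mem_bot L).1 hg
    · obtain ⟨g, hgV, hg0⟩ := Submodule.exists_mem_ne_zero_of_ne_bot hV
      have hex : ∃ k, φ k g ≠ 0 := by
        by_contra hcon
        exact hg0 (hsep g hgV fun i => not_not.1 fun hi => hcon ⟨i, hi⟩)
      obtain ⟨k, hk⟩ := hex
      set V' : Submodule L M := V ⊓ LinearMap.ker (φ k) with hV'
      have hle : V' ≤ V := inf_le_left
      have hlt : V' < V := by
        refine lt_of_le_of_ne hle ?_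
        intro hEq
        have : g ∈ V' := by rw [hEq]; exact hgV
        exact hk (LinearMap.mem_ker.1 this.2)
      have : Module.Finite L ↥V := hfin
      have hfin' : Module.Finite L ↥V' := Submodule.finiteDimensional_of_le hle
      have hrk : finrank L ↥V' < n := by
        rw [← hn]
        exact Submodule.finrank_lt_finrank_of_lt hlt
      obtain ⟨S', f', hf'V, hf'δ, hf'sep⟩ :=
        ih (finrank L ↥V') hrk V' hfin' rfl (fun g hg h => hsep g (hle hg) h)
      have hkS' : k ∉ S' := by
        intro hkS
        have h1 := hf'δ k hkS k hkS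
        rw [if_pos rfl] at h1
        have h0 : φ k (f' k) = 0 := LinearMap.mem_ker.1 (hf'V k hkS).2
        rw [h0] at h1
        exact zero_ne_one h1
      have hker : ∀ j ∈ S', φ k (f' j) = 0 := fun j hj => LinearMap.mem_ker.1 (hf'V j hj).2
      obtain ⟨g', hg'V, hg'k⟩ : ∃ g' ∈ V, φ k g' = 1 := by
        refine ⟨(φ k g)⁻¹ • g, V.smul_mem _ hgV, ?_⟩
        rw [map_smul, smul_eq_mul, inv_mul_cancel₀ hk]
      obtain ⟨g₁, hg₁⟩ : ∃ g₁ : M, g₁ = g' - ∑ j ∈ S', φ j g' • f' j := ⟨_, rfl⟩
      have hg₁V : g₁ ∈ V := by
        rw [hg₁]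
        exact V.sub_mem hg'V (V.sum_mem fun j hj => V.smul_mem _ (hle (hf'V j hj)))
      have hg₁k : φ k g₁ = 1 := by
        rw [hg₁, map_sub, map_sum, hg'k]
        rw [Finset.sum_eq_zero, sub_zero]
        intro j hj
        rw [map_smul, hker j hj, smul_zero]
      have hg₁j : ∀ b ∈ S', φ b g₁ = 0 := by
        intro b hb
        rw [hg₁, map_sub, map_sum]
        rw [Finset.sum_eq_single b]
        · rw [map_smul, hf'δ b hb b hb, if_pos rfl, smul_eq_mul, mul_one, sub_self]
        · intro j hj hjb
          rw [map_smul, hf'δ j hj b hb, if_neg (Ne.symm hjb), smul_zero]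
        · intro hb'
          exact absurd hb hb'
      refine ⟨insert k S', Function.update f' k g₁, ?_, ?_, ?_⟩
      · intro a ha
        rcases Finset.mem_insert.1 ha with hak | haS
        · rw [hak, Function.update_self]
          exact hg₁V
        · have hak : a ≠ k := fun h => hkS' (h ▸ haS)
          rw [Function.update_of_ne hak]
          exact hle (hf'V a haS)
      · intro a ha b hb
        rcases Finset.mem_insert.1 ha with hak | haS
        · rw [hak, Function.update_self]
          rcases Finset.mem_insert.1 hb with hbk | hbS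
          · rw [hbk, if_pos rfl]
            exact hg₁k
          · have hbk : b ≠ k := fun h => hkS' (h ▸ hbS)
            rw [if_neg hbk]
            exact hg₁j b hbS
        · have hak : a ≠ k := fun h => hkS' (h ▸ haS)
          rw [Function.update_of_ne hak]
          rcases Finset.mem_insert.1 hb with hbk | hbS
          · rw [hbk, if_neg (Ne.symm hak)]
            exact hker a haS
          · exact hf'δ a haS b hbS
      · intro h hhV hh
        have hhk : φ k h = 0 := hh k (Finset.mem_insert_self k S')
        exact hf'sep h ⟨hhV, LinearMap.mem_ker.2 hhk⟩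
          (fun j hj => hh j (Finset.mem_insert_of_mem hj))

/-- The `k`-th coefficient, as a linear functional on `F̄ = ℚ̄ F₀`. -/
def coeffFunctional (F₀ : IntermediateField ℚ (LaurentSeries ℚ)) (k : ℤ) :
    FB F₀ →ₗ[QQbar] QQbar where
  toFun x := ((x : FB F₀) : LaurentSeries QQbar).coeff k
  map_add' x y := by
    show ((x : LaurentSeries QQbar) + (y : LaurentSeries QQbar)).coeff k = _
    rw [HahnSeries.coeff_add]
  map_smul' a x := by
    show ((a • x : FB F₀) : LaurentSeries QQbar).coeff k = a • _
    have : ((a • x : FB F₀) : LaurentSeries QQbar)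
        = HahnSeries.C a * (x : LaurentSeries QQbar) := by
      rw [Algebra.smul_def]
      show algebraMap QQbar (LaurentSeries QQbar) a * (x : LaurentSeries QQbar) = _
      rw [algebraMap_laurentSeries_eq_single]
      rfl
    rw [this, HahnSeries.C_mul_eq_smul, HahnSeries.coeff_smul]

@[simp] theorem coeffFunctional_apply (F₀ : IntermediateField ℚ (LaurentSeries ℚ)) (k : ℤ)
    (x : FB F₀) : coeffFunctional F₀ k x = ((x : FB F₀) : LaurentSeries QQbar).coeff k := rfl

theorem coeffFunctional_smul (F₀ : IntermediateField ℚ (LaurentSeries ℚ)) (k : ℤ)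
    (σ : QQbar ≃ₐ[ℚ] QQbar) (x : FB F₀) :
    coeffFunctional F₀ k (arithmeticGalois F₀ σ • x) = σ (coeffFunctional F₀ k x) := by
  rw [coeffFunctional_apply, coe_arithmeticGalois_smul, coeffMap_coeff]
  rfl

/-- **MW-E-DESC** (row 876). -/
theorem descentStatement : DescentStatement := by
  classical
  intro F₀ V hfin hstab
  have hsep : ∀ g ∈ V, (∀ i, coeffFunctional F₀ i g = 0) → g = 0 := by
    intro g _ hg
    apply Subtype.ext
    apply HahnSeries.ext
    funext i
    exact hg i
  obtain ⟨S, f, hfV, hfδ, hfsep⟩ :=
    echelon_exists (coeffFunctional F₀) (finrank QQbar ↥V) V hfin rfl hsep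
  have hfix : ∀ k ∈ S, ∀ σ : QQbar ≃ₐ[ℚ] QQbar, arithmeticGalois F₀ σ • f k = f k := by
    intro k hk σ
    have hmem : arithmeticGalois F₀ σ • f k - f k ∈ V :=
      V.sub_mem (hstab σ (f k) (hfV k hk)) (hfV k hk)
    have hzero := hfsep _ hmem (fun j hj => by
      rw [map_sub, coeffFunctional_smul, hfδ k hk j hj]
      split_ifs
      · rw [map_one, sub_self]
      · rw [map_zero, sub_self])
    exact sub_eq_zero.1 hzero
  apply le_antisymm
  · intro g hg
    have hmem : g - ∑ k ∈ S, coeffFunctional F₀ k g • f k ∈ V :=
      V.sub_mem hg (V.sum_mem fun k hk => V.smul_mem _ (hfV k hk))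
    have hzero := hfsep _ hmem (fun j hj => by
      rw [map_sub, map_sum, Finset.sum_eq_single j]
      · rw [map_smul, hfδ j hj j hj, if_pos rfl, smul_eq_mul, mul_one, sub_self]
      · intro b hb hbj
        rw [map_smul, hfδ b hb j hj, if_neg (Ne.symm hbj), smul_zero]
      · intro hj'
        exact absurd hj hj')
    rw [sub_eq_zero.1 hzero]
    refine Submodule.sum_mem _ fun k hk => Submodule.smul_mem _ _ (Submodule.subset_span ?_)
    exact ⟨hfV k hk, hfix k hk⟩
  · rw [Submodule.span_le]
    intro g hg
    exact hg.1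

end Fermat.Agent.H27.MW

end
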